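import Fermat.Agent.DiagonalHua.Minor

/-!
# The circle method for a form in `2 ^ k + 1` variables

The major arcs of `BirchForms` with the new bound on the minor arcs.
-/

set_option autoImplicit false

noncomputable section

namespace FA.DiagonalHua

open Finset Filter Topology FA.WaringAsymptotic FA.BirchForms
open FA.ThreePrimes hiding mainTerm singularSeries singularTerm
open scoped Real

/-- **The circle method.** -/
theorem exists_coef_circle {k n : ℕ} (hk : 2 ≤ k) (hn : 2 ^ k ≤ n) (h3k : 3 * k ≤ n + 1)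
    {c : Fin (n + 1) → ℤ} (hc : ∀ i, c i ≠ 0) (hc0 : (c 0).natAbs = 1) : ∃ C : ℝ, 0 < C ∧
    ∀ N : ℕ, 1 ≤ N → (∀ i, (c i).natAbs ≤ N) →
      ‖((solCount k c N : ℕ) : ℂ) - (signedWeight k c N : ℂ) * ((coefScale k c : ℂ) *
          ∑ q ∈ Icc 1 ⌊(rootFloor k N : ℝ) ^ (1 / 10 : ℝ)⌋₊, term k c q)‖ ≤
        C * (N : ℝ) ^ (((n + 1 : ℕ) : ℝ) / k - 1) *
          (rootFloor k N : ℝ) ^ (-(weylSaving k / 2)) := by
  obtain ⟨C₁, hC₁, hmin⟩ := exists_minor_product hk hn hc hc0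
  obtain ⟨C₂, hC₂, harc⟩ := exists_coef_arc_error hk hc
  obtain ⟨C₃, hC₃, htail⟩ := exists_signed_tail hk h3k hc
  obtain ⟨C₅, hC₅, hterm⟩ := exists_term_le hk h3k hc
  obtain ⟨hκ0, hκ1⟩ := coefScale_mem (k := k) hc
  have hk0 : (0 : ℝ) < k := by exact_mod_cast (show 0 < k by omega)
  have hX2 : 2 ≤ ((n + 1 : ℕ) : ℝ) * (1 / (k : ℝ)) := by
    rw [mul_one_div, le_div_iff₀ hk0]
    exact_mod_cast (show 2 * k ≤ n + 1 by omega)
  obtain ⟨Z, hZ⟩ : ∃ Z, Z = C₅ * ∑' q : ℕ, (q : ℝ) ^ (-(7 / 5) : ℝ) := ⟨_, rfl⟩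
  have hZ0 : 0 ≤ Z := hZ ▸ mul_nonneg (by linarith) (tsum_nonneg fun q => by positivity)
  refine ⟨C₁ + C₂ + Z * C₃, by positivity, fun N hN hcN => ?_⟩
  obtain ⟨P, hP⟩ : ∃ P, P = rootFloor k N := ⟨_, rfl⟩
  obtain ⟨hP1, hPN, hNP⟩ := rootFloor_spec (show 1 ≤ k by omega) hN
  rw [← hP] at hP1 hPN hNP ⊢
  have hPr : (1 : ℝ) ≤ P := by exact_mod_cast hP1
  have hN1 : (1 : ℝ) ≤ N := by exact_mod_cast hN
  obtain ⟨Q, hQ⟩ : ∃ Q, Q = ⌊(P : ℝ) ^ (1 / 10 : ℝ)⌋₊ := ⟨_, rfl⟩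
  obtain ⟨M, hM⟩ : ∃ M, M = 2 * (n + 1) * N := ⟨_, rfl⟩
  obtain ⟨δ, hδ⟩ : ∃ δ, δ = (P : ℝ) ^ (1 / 10 : ℝ) / (N : ℝ) := ⟨_, rfl⟩
  obtain ⟨F, hF⟩ : ∃ F : ℕ → ℂ, F = fun h : ℕ => sumProduct k c N ((h : ℝ) / M) := ⟨_, rfl⟩
  have hM0 : (0 : ℝ) < M := by rw [hM]; positivity
  obtain ⟨σ, hσ⟩ : ∃ σ, σ = weylSaving k / 2 := ⟨_, rfl⟩
  rw [← hσ]
  have hσ' : σ ≤ 1 / 80 := by rw [hσ]; linarith [weylSaving_le_of_two_le hk]
  have hσ0 : 0 ≤ σ := by rw [hσ]; linarith [weylSaving_pos k]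
  obtain ⟨E, hE⟩ : ∃ E : ℝ, E = (N : ℝ) ^ (((n + 1 : ℕ) : ℝ) / k - 1) * (P : ℝ) ^ (-σ) :=
    ⟨_, rfl⟩
  have hE0 : 0 ≤ E := by rw [hE]; positivity
  have hY0 : 0 ≤ ((n + 1 : ℕ) : ℝ) / k - 1 := by
    rw [← mul_one_div]; linarith
  have hPE : ∀ e : ℝ, e ≤ ((n + 1 : ℕ) : ℝ) - k - σ → (P : ℝ) ^ e ≤ E := fun e he => by
    rw [hE]
    refine (Real.rpow_le_rpow_of_exponent_le hPr he).trans ?_
    rw [sub_eq_add_neg _ σ, Real.rpow_add (by linarith)]
    refine mul_le_mul_of_nonneg_right ?_ (by positivity)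
    refine le_trans (le_of_eq ?_) (pow_root_le hY0 hPN)
    congr 1
    field_simp
  -- the centres are apart
  have hQP : (Q : ℝ) ≤ (P : ℝ) ^ (1 / 10 : ℝ) := hQ ▸ Nat.floor_le (by positivity)
  have hsep : ((arcCentres Q : Set (Σ _ : ℕ, ℕ))).PairwiseDisjoint (arc M δ) := by
    rcases eq_or_lt_of_le hP1 with h | h
    · intro z hz w hw hne
      refine absurd ?_ hne
      have hQ1 : Q = 1 := by rw [hQ, ← h]; simp
      obtain ⟨a, b⟩ := z
      obtain ⟨a', b'⟩ := w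
      rw [mem_coe, hQ1, mem_arcCentres] at hz hw
      obtain ⟨h1, h2, -⟩ := hz
      obtain ⟨h3, h4, -⟩ := hw
      simp only at h1 h2 h3 h4
      obtain rfl : a = 1 := by omega
      obtain rfl : a' = 1 := by omega
      rw [show b = b' by omega]
    intro z hz w hw hne
    rw [Function.onFun, disjoint_left]
    intro x hx hx'
    rw [arc, mem_filter] at hx hx'
    have h1 := inv_mul_le_nearDist_centre (mem_coe.1 hz) (mem_coe.1 hw) hne
    have h2 := nearDist_sub_sub_le (centre z) (centre w) ((x : ℝ) / M)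
    have hQ0 : (0 : ℝ) < Q := by
      rw [hQ, Nat.cast_pos, Nat.floor_pos]
      exact Real.one_le_rpow hPr (by norm_num)
    have h3 : 2 * δ < 1 / ((Q : ℝ) * Q) := by
      rw [hδ, mul_div_assoc', div_lt_div_iff₀ (by linarith) (by positivity), one_mul]
      have h2P : (2 : ℝ) ≤ P := by exact_mod_cast h
      calc 2 * (P : ℝ) ^ (1 / 10 : ℝ) * ((Q : ℝ) * Q)
          ≤ P * (P : ℝ) ^ (1 / 10 : ℝ) * ((P : ℝ) ^ (1 / 10 : ℝ) * (P : ℝ) ^ (1 / 10 : ℝ)) :=
            mul_le_mul (mul_le_mul_of_nonneg_right h2P (by positivity))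
              (mul_le_mul hQP hQP hQ0.le (by positivity)) (by positivity) (by positivity)
        _ = (P : ℝ) ^ (13 / 10 : ℝ) := by
            nth_rewrite 1 [← Real.rpow_one (P : ℝ)]
            rw [← Real.rpow_add (by linarith), ← Real.rpow_add (by linarith),
              ← Real.rpow_add (by linarith)]
            norm_num
        _ < (P : ℝ) ^ (k : ℝ) := Real.rpow_lt_rpow_of_exponent_lt (by linarith)
            (lt_of_lt_of_le (by norm_num : (13 / 10 : ℝ) < 2) (by exact_mod_cast hk))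
        _ ≤ N := by rw [Real.rpow_natCast]; exact_mod_cast hPN
    linarith
  have hdecomp : ∑ h ∈ range M, F h =
      ∑ h ∈ minorSet M P N, F h + ∑ z ∈ arcCentres Q, ∑ h ∈ arc M δ z, F h := by
    rw [← sum_biUnion hsep, minorSet, ← hQ, ← hδ, sum_sdiff]
    exact biUnion_subset.2 fun z _ => filter_subset _ _
  have p1 : ‖∑ h ∈ minorSet M P N, F h‖ ≤ M * (C₁ * E) := by
    refine (norm_sum_le _ _).trans (le_trans (le_of_eq (sum_congr rfl fun h _ => by rw [hF]))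
      ((hmin N P M hN hP hM hcN).trans ?_))
    rw [mul_right_comm, mul_comm (C₁ * _) (M : ℝ)]
    exact mul_le_mul_of_nonneg_left
      (mul_le_mul_of_nonneg_left (hPE _ (by rw [hσ])) hC₁.le) hM0.le
  have p3 : ‖∑ z ∈ arcCentres Q, ∑ h ∈ arc M δ z, (F h - coefArc k c z *
      signedMain k c N ((h : ℝ) / M + -centre z))‖ ≤ M * (C₂ * E) := by
    refine (norm_sum_le _ _).trans ((sum_le_card_nsmul _ _ (C₂ * (P : ℝ) ^ ((n : ℝ) + 4 / 10))
      fun z hz => ?_).trans ?_)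
    · refine (norm_sum_le _ _).trans ?_
      have := harc N P M hP hN hcN hM z (hQ ▸ hz)
      rw [← hδ] at this
      rwa [hF]
    · rw [nsmul_eq_mul]
      have hcard : ((arcCentres Q).card : ℝ) ≤ (P : ℝ) ^ (2 / 10 : ℝ) := by
        have h1 : (arcCentres Q).card ≤ Q * Q := by
          rw [arcCentres, card_sigma]
          refine (sum_le_card_nsmul _ _ Q fun q hq => ?_).trans (le_of_eq ?_)
          · rw [card_unitResidues]
            exact (Nat.totient_le q).trans (mem_Icc.1 hq).2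
          · simp
        refine (Nat.cast_le.2 h1).trans ?_
        push_cast
        refine (mul_le_mul hQP hQP (Nat.cast_nonneg _) (by positivity)).trans (le_of_eq ?_)
        rw [← Real.rpow_add (by linarith)]
        norm_num
      refine (mul_le_mul_of_nonneg_right hcard (by positivity)).trans ?_
      have hPM : (P : ℝ) ^ (k : ℝ) ≤ M := by
        rw [Real.rpow_natCast]
        exact_mod_cast hPN.trans (hM ▸ Nat.le_mul_of_pos_left N (by omega))
      calc (P : ℝ) ^ (2 / 10 : ℝ) * (C₂ * (P : ℝ) ^ ((n : ℝ) + 4 / 10))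
          = C₂ * ((P : ℝ) ^ (k : ℝ) * (P : ℝ) ^ ((n : ℝ) + 6 / 10 - k)) := by
            rw [mul_left_comm, ← Real.rpow_add (by linarith), ← Real.rpow_add (by linarith)]
            ring_nf
        _ ≤ C₂ * ((M : ℝ) * E) := mul_le_mul_of_nonneg_left
            (mul_le_mul hPM (hPE _ (by push_cast; linarith)) (by positivity) hM0.le) hC₂.le
        _ = _ := by ring
  have hZsum : ∑ z ∈ arcCentres Q, ‖coefArc k c z‖ ≤ Z := by
    rw [arcCentres, sum_sigma, hZ, ← tsum_mul_left]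
    refine le_trans (sum_le_sum fun q _ => le_trans (sum_le_sum fun r _ => ?_)
      (hterm q).1) (Summable.sum_le_tsum _ (fun i _ => by positivity)
        ((Real.summable_nat_rpow.2 (by norm_num)).mul_left C₅))
    rw [coefArc, norm_mul, Complex.norm_real, Real.norm_of_nonneg hκ0.le]
    exact mul_le_of_le_one_left (norm_nonneg _) hκ1
  have p5 : ‖∑ z ∈ arcCentres Q, coefArc k c z *
      ∑ h ∈ range M \ arc M δ z, signedMain k c N ((h : ℝ) / M + -centre z)‖ ≤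
        M * (Z * C₃ * E) := by
    refine (norm_sum_le _ _).trans ((sum_le_sum fun z hz => ?_).trans
      ((sum_mul _ _ (C₃ * M * E)).ge.trans ((mul_le_mul_of_nonneg_right hZsum
        (by positivity)).trans (le_of_eq (by ring)))))
    rw [norm_mul]
    refine mul_le_mul_of_nonneg_left ?_ (norm_nonneg _)
    have := htail N P M hP hN hM z (hQ ▸ hz)
    rw [← hδ] at this
    refine this.trans ?_
    rw [hE, mul_assoc (C₃ * M)]
    exact mul_le_mul_of_nonneg_left (mul_le_mul_of_nonneg_left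
      (Real.rpow_le_rpow_of_exponent_le hPr (by linarith)) (by positivity)) (by positivity)
  have hident : (M : ℂ) * solCount k c N -
      (M : ℂ) * signedWeight k c N * ∑ z ∈ arcCentres Q, coefArc k c z =
      ∑ h ∈ minorSet M P N, F h + ∑ z ∈ arcCentres Q, ∑ h ∈ arc M δ z,
          (F h - coefArc k c z * signedMain k c N ((h : ℝ) / M + -centre z)) -
        ∑ z ∈ arcCentres Q, coefArc k c z *
          ∑ h ∈ range M \ arc M δ z, signedMain k c N ((h : ℝ) / M + -centre z) := by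
    have h1 : ∀ z ∈ arcCentres Q,
        (M : ℂ) * signedWeight k c N * coefArc k c z =
          ∑ h ∈ arc M δ z, coefArc k c z *
              signedMain k c N ((h : ℝ) / M + -centre z) +
            coefArc k c z *
              ∑ h ∈ range M \ arc M δ z, signedMain k c N ((h : ℝ) / M + -centre z) := by
      intro z _
      rw [← mul_sum, ← mul_add, add_comm (∑ h ∈ arc M δ z, _), sum_sdiff
        (show arc M δ z ⊆ range M from filter_subset _ _),
        sum_grid_signedMain (by omega) hN hM]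
      ring
    rw [← sum_grid_sumProduct (by omega) (by omega) hc hcN hN hM, mul_sum, sum_congr rfl h1,
      sum_add_distrib,
      show ∑ h ∈ range M, sumProduct k c N ((h : ℝ) / M) = ∑ h ∈ range M, F h by rw [hF], hdecomp]
    simp only [sum_sub_distrib]
    ring
  have hmain : ‖((solCount k c N : ℕ) : ℂ) -
      (signedWeight k c N : ℂ) * ∑ z ∈ arcCentres Q, coefArc k c z‖ ≤
        (C₁ + C₂ + Z * C₃) * E := by
    refine le_of_mul_le_mul_left ?_ hM0
    rw [← Complex.norm_natCast M, ← norm_mul, mul_sub, ← mul_assoc, hident, Complex.norm_natCast]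
    refine (norm_sub_le _ _).trans ((add_le_add ((norm_add_le _ _).trans (add_le_add p1 p3))
      p5).trans (le_of_eq ?_))
    ring
  rw [← hQ, ← sum_coefArc]
  exact hmain.trans (le_of_eq (by rw [hE]; ring))

/-- **Solutions in positive integers.** -/
theorem exists_positive_zero {k n : ℕ} (hk : 2 ≤ k) (hn : 2 ^ k ≤ n) (h3k : 3 * k ≤ n + 1)
    {c : Fin (n + 1) → ℤ} (hc : ∀ i, c i ≠ 0) (hc0 : (c 0).natAbs = 1) {i j : Fin (n + 1)}
    (hi : 0 < c i) (hj : c j < 0) (hloc : ∀ p, p.Prime → LocalPattern k c p) :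
    ∃ z : Fin (n + 1) → ℕ, (∀ l, 0 < z l) ∧ ∑ l, c l * (z l : ℤ) ^ k = 0 := by
  obtain ⟨C, hC, hcirc⟩ := exists_coef_circle hk hn h3k hc hc0
  obtain ⟨b, hb, hJ⟩ := exists_signedWeight_ge (show 1 ≤ k by omega) hc hi hj
  obtain ⟨C₄, hC₄, hser⟩ := exists_term_tail hk h3k hc
  have hS := series_pos hk h3k hc hloc
  obtain ⟨hκ0, -⟩ := coefScale_mem (k := k) hc
  obtain ⟨T, hT⟩ : ∃ T, T = ∑' q, term k c q := ⟨_, rfl⟩
  rw [← hT] at hS
  have hk0 : (0 : ℝ) < k := by exact_mod_cast (show 0 < k by omega)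
  obtain ⟨σ, hσ⟩ : ∃ σ, σ = weylSaving k / 2 := ⟨_, rfl⟩
  have hσ0 : 0 < σ := hσ ▸ half_pos (weylSaving_pos k)
  have hσ' : σ ≤ 1 / 80 := by rw [hσ]; linarith [weylSaving_le_of_two_le hk]
  obtain ⟨δ, hδ, hδ1, hδ2⟩ : ∃ δ, 0 < δ ∧ C₄ * δ ≤ T.re / 2 ∧
      C * δ < coefScale k c * b * (T.re / 2) := by
    refine ⟨min (T.re / 2 / C₄) (coefScale k c * b * (T.re / 2) / (2 * C)),
      lt_min (by positivity) (by positivity), ?_, ?_⟩
    · rw [← le_div_iff₀' hC₄]; exact min_le_left _ _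
    · refine lt_of_le_of_lt (mul_le_mul_of_nonneg_left (min_le_right _ _) hC.le) ?_
      rw [show C * (coefScale k c * b * (T.re / 2) / (2 * C)) =
        coefScale k c * b * (T.re / 2) / 2 by field_simp]
      exact half_lt_self (by positivity)
  have hlim : Tendsto (fun N : ℕ => (2 : ℝ) ^ σ * (N : ℝ) ^ (-(σ / k))) atTop (𝓝 0) := by
    simpa using ((tendsto_rpow_neg_atTop (div_pos hσ0 hk0)).comp
      tendsto_natCast_atTop_atTop).const_mul ((2 : ℝ) ^ σ)
  obtain ⟨N, ⟨hu, hN⟩, hcN⟩ := (((hlim.eventually (eventually_le_nhds hδ)).and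
    (eventually_ge_atTop (4 * (n + 1)))).and
      (eventually_all.2 fun l => eventually_ge_atTop (c l).natAbs)).exists
  have hN1 : 1 ≤ N := by omega
  obtain ⟨hP1, -, hNP⟩ := rootFloor_spec (show 1 ≤ k by omega) hN1
  obtain ⟨P, hP⟩ : ∃ P, P = rootFloor k N := ⟨_, rfl⟩
  have h1 := hcirc N hN1 hcN
  rw [← hP] at h1 hP1 hNP
  rw [← hσ] at h1
  obtain ⟨u, hudef⟩ : ∃ u, u = (P : ℝ) ^ (-σ) := ⟨_, rfl⟩
  have hu' : u ≤ δ := hudef ▸ (root_neg_le (by omega) hP1 hN1 hNP hσ0.le).trans hu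
  obtain ⟨Q, hQ⟩ : ∃ Q, Q = ⌊(P : ℝ) ^ (1 / 10 : ℝ)⌋₊ := ⟨_, rfl⟩
  obtain ⟨X, hX⟩ : ∃ X, X = (N : ℝ) ^ (((n + 1 : ℕ) : ℝ) / k - 1) := ⟨_, rfl⟩
  rw [← hQ, ← hX, ← hudef] at h1
  have hX0 : 0 < X := hX ▸ Real.rpow_pos_of_pos (Nat.cast_pos.2 hN1) _
  have hQu : ((Q + 1 : ℕ) : ℝ) ^ (-(1 / 5) : ℝ) ≤ u := by
    have hP' : (1 : ℝ) ≤ P := by exact_mod_cast hP1
    have h2 : (P : ℝ) ^ (1 / 10 : ℝ) ≤ ((Q + 1 : ℕ) : ℝ) := by
      push_cast; exact hQ ▸ (Nat.lt_floor_add_one _).le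
    refine (Real.rpow_le_rpow_of_nonpos (by positivity) h2 (by norm_num)).trans ?_
    rw [← Real.rpow_mul (by linarith), hudef]
    exact Real.rpow_le_rpow_of_exponent_le hP' (by linarith)
  have h3 : T.re / 2 ≤ (∑ q ∈ Icc 1 Q, term k c q).re := by
    have h4 := (abs_le.1 ((Complex.abs_re_le_norm _).trans (hser Q).2)).1
    rw [Complex.sub_re, ← hT] at h4
    have h5 := mul_le_mul_of_nonneg_left (hQu.trans hu') hC₄.le
    linarith
  obtain ⟨z, hz⟩ : ((Fintype.piFinset fun l => Icc 1 (rootFloor k (N / (c l).natAbs))).filter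
      fun z => ∑ l, c l * (z l : ℤ) ^ k = 0).Nonempty := by
    rw [← card_pos]
    by_contra h0
    rw [← solCount] at h0
    rw [show solCount k c N = 0 by omega, Nat.cast_zero, zero_sub, norm_neg] at h1
    have h6 : signedWeight k c N * (coefScale k c * (∑ q ∈ Icc 1 Q, term k c q).re) ≤
        C * X * u :=
      le_trans (le_of_eq (by simp)) (((le_abs_self _).trans (Complex.abs_re_le_norm _)).trans h1)
    have hJ' := hJ N (by omega)
    rw [← hX] at hJ'
    have h7 := mul_le_mul hJ' (mul_le_mul_of_nonneg_left h3 hκ0.le) (by positivity)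
      (le_trans (by positivity) hJ')
    have h8 := mul_le_mul_of_nonneg_left hu' (mul_nonneg hC.le hX0.le)
    have h9 := mul_lt_mul_of_pos_right hδ2 hX0
    linarith
  exact ⟨z, fun l => (mem_Icc.1 (Fintype.mem_piFinset.1 (mem_filter.1 hz).1 l)).1,
    (mem_filter.1 hz).2⟩

end FA.DiagonalHua

end
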