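import Fermat.Agent.WaringHua.Minor
import Fermat.Agent.BirchForms.Circle

/-!
# The minor arcs for a form in `2 ^ k + 1` variables

The first sum has Weyl's saving, and by Hua's inequality the other `2 ^ k` cost
`P ^ (2 ^ k - k + ε)`.
-/

set_option autoImplicit false

noncomputable section

namespace FA.DiagonalHua

open Finset Filter Topology FA.WaringAsymptotic FA.BirchForms
open FA.ThreePrimes hiding mainTerm singularSeries singularTerm
open scoped Real

/-- **The minor arcs.** -/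
theorem exists_minor_product {k n : ℕ} (hk : 2 ≤ k) (hn : 2 ^ k ≤ n)
    {c : Fin (n + 1) → ℤ} (hc : ∀ i, c i ≠ 0) (hc0 : (c 0).natAbs = 1) : ∃ C : ℝ, 0 < C ∧
    ∀ N P M : ℕ, 1 ≤ N → P = rootFloor k N → M = 2 * (n + 1) * N →
      (∀ i, (c i).natAbs ≤ N) →
      ∑ h ∈ minorSet M P N, ‖sumProduct k c N ((h : ℝ) / M)‖ ≤
        C * M * (P : ℝ) ^ (((n + 1 : ℕ) : ℝ) - k - weylSaving k / 2) := by
  obtain ⟨t, ht⟩ : ∃ t, t = 2 ^ (k - 1) := ⟨_, rfl⟩
  have htk : 2 * t = 2 ^ k := by rw [ht, ← pow_succ', show k - 1 + 1 = k by omega]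
  obtain ⟨e, he⟩ : ∃ e, n = e + 2 * t := ⟨n - 2 * t, by omega⟩
  obtain ⟨C₁, hC₁, hsup⟩ := exists_minor_sup hk
  obtain ⟨C₂, hC₂, hmom⟩ := WaringHua.exists_moment (k := k) (by omega)
    (half_pos (weylSaving_pos k))
  rw [← ht] at hmom
  refine ⟨C₁ * (n * C₂) + 1, by positivity, fun N P M hN hP hM hcN => ?_⟩
  obtain ⟨hP1, hPN, hNP⟩ := rootFloor_spec (show 1 ≤ k by omega) hN
  rw [← hP] at hP1 hPN hNP
  have hPr : (1 : ℝ) ≤ P := by exact_mod_cast hP1
  obtain ⟨E, hE⟩ : ∃ E, E = (univ : Finset (Fin (n + 1))).erase 0 := ⟨_, rfl⟩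
  have hEc : #E = n := by simp [hE]
  have hkk : k * 2 ≤ 2 * t := by
    have := Nat.lt_two_pow_self (n := k - 1)
    omega
  obtain ⟨Y, hY⟩ : ∃ Y : ℝ, Y = 2 * (t : ℝ) - k + weylSaving k / 2 := ⟨_, rfl⟩
  have hY0 : 0 ≤ Y := by
    have h1 : (k : ℝ) * 2 ≤ 2 * (t : ℝ) := by exact_mod_cast hkk
    rw [hY]
    linarith [weylSaving_pos k]
  have hmo : ∀ i, ∑ h ∈ range M, ‖waringSum k (rootFloor k (N / (c i).natAbs))
      ((c i : ℝ) * ((h : ℝ) / M))‖ ^ (2 * t) ≤ M * (C₂ * (P : ℝ) ^ Y) := fun i => by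
    have hi := Int.natAbs_pos.2 (hc i)
    obtain ⟨hQ1, hQN, -⟩ := rootFloor_spec (show 1 ≤ k by omega) (Nat.div_pos (hcN i) hi)
    have hlt : (c i).natAbs * (t * rootFloor k (N / (c i).natAbs) ^ k) < M := by
      rw [hM, mul_left_comm]
      refine lt_of_le_of_lt (Nat.mul_le_mul_left t ((Nat.mul_le_mul_left _ hQN).trans
        (Nat.mul_div_le N _))) ?_
      exact Nat.mul_lt_mul_of_pos_right (by omega) hN
    rw [sum_norm_waringSum_mul_pow (c i) (hc i) hlt]
    refine mul_le_mul_of_nonneg_left ((hmom _ hQ1).trans (mul_le_mul_of_nonneg_left ?_ hC₂.le))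
      (Nat.cast_nonneg M)
    rw [← hY]
    exact Real.rpow_le_rpow (Nat.cast_nonneg _)
      (Nat.cast_le.2 (hP ▸ rootFloor_div_le (by omega) hi (hcN i))) hY0
  refine (sum_le_sum (g := fun h : ℕ => C₁ * (P : ℝ) ^ (1 - weylSaving k) * ((P : ℝ) ^ e *
    ∑ i ∈ E, ‖waringSum k (rootFloor k (N / (c i).natAbs)) ((c i : ℝ) * ((h : ℝ) / M))‖ ^ (2 * t)))
    fun h hh => ?_).trans ?_
  · have h0 : ‖waringSum k (rootFloor k (N / (c 0).natAbs)) ((c 0 : ℝ) * ((h : ℝ) / M))‖ =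
        ‖waringSum k P ((h : ℝ) / M)‖ := by
      rw [hc0, Nat.div_one, ← hP]
      rcases Int.natAbs_eq (c 0) with e' | e' <;> rw [e', hc0]
      · simp
      · simp [waringSum_neg]
    rw [sumProduct, norm_prod, ← mul_prod_erase _ _ (mem_univ 0), ← hE, h0]
    refine mul_le_mul ?_ ?_ (prod_nonneg fun i _ => norm_nonneg _) (by positivity)
    · rw [minorSet, Finset.mem_sdiff, mem_biUnion] at hh
      refine hsup N P _ hP1 hPN hNP fun z hz => ?_
      by_contra hle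
      exact hh.2 ⟨z, hz, mem_filter.2 ⟨hh.1, not_lt.1 hle⟩⟩
    · refine (prod_le_sum_pow E (card_pos.1 (by omega))
        (fun i => ‖waringSum k (rootFloor k (N / (c i).natAbs)) ((c i : ℝ) * ((h : ℝ) / M))‖)
        fun i _ => norm_nonneg _).trans ?_
      rw [hEc, mul_sum]
      refine sum_le_sum fun i _ => ?_
      refine le_trans (le_of_eq (by rw [← pow_add, ← he] :
        _ = ‖waringSum k (rootFloor k (N / (c i).natAbs)) ((c i : ℝ) * ((h : ℝ) / M))‖ ^ e *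
          ‖waringSum k (rootFloor k (N / (c i).natAbs)) ((c i : ℝ) * ((h : ℝ) / M))‖ ^ (2 * t)))
        ?_
      refine mul_le_mul_of_nonneg_right (pow_le_pow_left₀ (norm_nonneg _)
        ((norm_waringSum_le _ _ _).trans (Nat.cast_le.2 ?_)) e) (by positivity)
      exact hP ▸ rootFloor_div_le (by omega) (Int.natAbs_pos.2 (hc i)) (hcN i)
  rw [← mul_sum, ← mul_sum, sum_comm]
  refine (mul_le_mul_of_nonneg_left (mul_le_mul_of_nonneg_left (sum_le_sum fun i _ =>
    (sum_le_sum_of_subset_of_nonneg (t := range M) (show minorSet M P N ⊆ range M from sdiff_subset)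
      fun h _ _ => by positivity).trans (hmo i)) (by positivity)) (by positivity)).trans ?_
  rw [sum_const, hEc, nsmul_eq_mul]
  calc C₁ * (P : ℝ) ^ (1 - weylSaving k) * ((P : ℝ) ^ e * ((n : ℝ) * (M * (C₂ * (P : ℝ) ^ Y))))
      = C₁ * (n * C₂) * M * (P : ℝ) ^ (1 - weylSaving k + (e : ℝ) + Y) := by
        rw [Real.rpow_add (by linarith : (0 : ℝ) < P), Real.rpow_add (by linarith : (0 : ℝ) < P),
          Real.rpow_natCast]
        ring
    _ ≤ (C₁ * (n * C₂) + 1) * M * (P : ℝ) ^ (1 - weylSaving k + (e : ℝ) + Y) := by gcongr; linarith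
    _ = _ := by
        rw [hY, he]
        push_cast
        ring_nf

end FA.DiagonalHua

end
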